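import Fermat.Agent.GaussDigamma.Main
import Fermat.Agent.Transcendence.PeriodicValue

/-!
# Digamma values and Euler–Lehmer constants

Differences of these numbers for one denominator are convergent sums `∑ Φ n / n` with rational
periodic `Φ`, so by Baker `0` or transcendental; and they are not `0`.
-/

set_option autoImplicit false

noncomputable section

open Filter Topology Finset
open scoped Real

namespace FA.MurtySaradha

variable {q : ℕ} [NeZero q]

/-- The indicator of a class. -/
def classInd (a : ℕ) (x : ZMod q) : ℂ := if x = (a : ZMod q) then 1 else 0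

theorem sum_classInd (a : ℕ) : ∑ x : ZMod q, classInd a x = 1 := by simp [classInd]

omit [NeZero q] in
theorem sum_classInd_div {a : ℕ} (h1 : 1 ≤ a) (ha : a ≤ q) (N : ℕ) :
    ∑ n ∈ range (q * N + 1), classInd (q := q) a n / (n : ℂ) =
      ∑ k ∈ range N, (1 : ℂ) / ((q * k + a : ℕ) : ℂ) := by
  induction N with
  | zero => simp
  | succ N ih =>
    rw [show q * (N + 1) + 1 = q * N + 1 + q by ring, sum_range_add, ih, sum_range_succ]
    congr 1
    have hcast : ∀ i : ℕ, ((q * N + 1 + i : ℕ) : ZMod q) = ((i + 1 : ℕ) : ZMod q) := fun i => by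
      push_cast
      rw [ZMod.natCast_self]
      ring
    rw [sum_eq_single (a - 1)]
    · rw [classInd, if_pos (by rw [hcast, Nat.sub_add_cancel h1]),
        show q * N + 1 + (a - 1) = q * N + a by omega]
    · intro i hi hne
      rw [Finset.mem_range] at hi
      rw [classInd, if_neg, zero_div]
      rw [hcast, ZMod.natCast_eq_natCast_iff]
      intro h
      have h' : i ≡ a - 1 [MOD q] := Nat.ModEq.add_right_cancel' 1 (by
        rwa [Nat.sub_add_cancel h1])
      exact hne (h'.eq_of_lt_of_lt hi (by omega))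
    · exact fun h => absurd (Finset.mem_range.2 (by omega)) h

/-- The value of the difference of two classes. -/
def classDiff (a b : ℕ) : ℂ :=
  PeriodicValue.logValue fun x : ZMod q => classInd a x - classInd b x

theorem sum_classInd_sub (a b : ℕ) : ∑ x : ZMod q, (classInd a x - classInd b x) = 0 := by
  rw [Finset.sum_sub_distrib, sum_classInd, sum_classInd, sub_self]

/-- `q ∑ (1_a - 1_b) (n) / n = ψ (b / q) - ψ (a / q)`. -/
theorem classDiff_eq {a b : ℕ} (ha : 1 ≤ a) (ha' : a ≤ q) (hb : 1 ≤ b) (hb' : b ≤ q) :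
    (q : ℂ) * classDiff (q := q) a b =
      Complex.digamma ((b : ℂ) / q) - Complex.digamma ((a : ℂ) / q) := by
  have hq : (0 : ℝ) < q := Nat.cast_pos.2 (NeZero.pos q)
  have hψ : ∀ c : ℕ, 1 ≤ c → Tendsto
      (fun N : ℕ => ((Real.log N - ∑ k ∈ range N, ((c : ℝ) / q + k)⁻¹ : ℝ) : ℂ)) atTop
      (𝓝 (Complex.digamma ((c : ℂ) / q))) := fun c hc => by
    have := GaussDigamma.tendsto_digamma (x := (c : ℝ) / q) (div_pos (Nat.cast_pos.2 hc) hq)
    simpa only [Complex.ofReal_div, Complex.ofReal_natCast] using this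
  have ht : Tendsto (fun N : ℕ => q * N + 1) atTop atTop :=
    tendsto_atTop_mono (fun N => by
      have := Nat.le_mul_of_pos_left N (NeZero.pos q)
      simp only [id]
      omega) tendsto_id
  have h1 := ((PeriodicValue.tendsto_series (sum_classInd_sub (q := q) a b)).comp ht).const_mul
    (q : ℂ)
  refine tendsto_nhds_unique h1 (((hψ b hb).sub (hψ a ha)).congr fun N => ?_)
  simp only [Function.comp_apply, sub_div, Finset.sum_sub_distrib, sum_classInd_div ha ha',
    sum_classInd_div hb hb', mul_sub, Finset.mul_sum, Complex.ofReal_sub, Complex.ofReal_sum]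
  have e : ∀ c k : ℕ, (((c : ℝ) / q + k)⁻¹ : ℝ) = ((q : ℂ) * (1 / ((q * k + c : ℕ) : ℂ))) :=
    fun c k => by
      push_cast
      rw [div_add' _ _ _ (Nat.cast_ne_zero.2 (NeZero.ne q) : (q : ℂ) ≠ 0), inv_div]
      ring
  simp only [e]
  ring

omit [NeZero q] in
theorem isAlgebraic_classInd (a : ℕ) (x : ZMod q) : IsAlgebraic ℚ (classInd a x) := by
  rw [classInd]
  split_ifs
  exacts [isAlgebraic_one, isAlgebraic_zero]

theorem classDiff_ne_zero {a b : ℕ} (ha : 1 ≤ a) (hb' : b ≤ q) (hab : a < b) :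
    classDiff (q := q) a b ≠ 0 := by
  intro h0
  have ha' : a ≤ q := by omega
  have hb : 1 ≤ b := by omega
  have ht : Tendsto (fun N : ℕ => q * N + 1) atTop atTop :=
    tendsto_atTop_mono (fun N => by
      have := Nat.le_mul_of_pos_left N (NeZero.pos q)
      simp only [id]
      omega) tendsto_id
  have h := (Complex.continuous_re.tendsto _).comp
    ((PeriodicValue.tendsto_series (sum_classInd_sub (q := q) a b)).comp ht)
  rw [show PeriodicValue.logValue (fun x : ZMod q => classInd a x - classInd b x) = 0 from h0,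
    Complex.zero_re] at h
  have hpos : (0 : ℝ) < 1 / (a : ℝ) - 1 / b :=
    sub_pos.2 (one_div_lt_one_div_of_lt (Nat.cast_pos.2 ha) (Nat.cast_lt.2 hab))
  refine not_lt.2 (ge_of_tendsto h ?_) hpos
  refine (eventually_ge_atTop 1).mono fun N hN => ?_
  have e : (∑ n ∈ range (q * N + 1), (classInd (q := q) a n - classInd (q := q) b n) / (n : ℂ)).re =
      ∑ k ∈ range N, (1 / ((q * k + a : ℕ) : ℝ) - 1 / ((q * k + b : ℕ) : ℝ)) := by
    rw [← Complex.ofReal_re (∑ k ∈ range N, _)]
    congr 1
    simp only [sub_div, Finset.sum_sub_distrib, sum_classInd_div ha ha', sum_classInd_div hb hb']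
    push_cast
    rfl
  simp only [Function.comp_apply, e]
  refine le_trans (le_of_eq ?_) (single_le_sum (fun k _ => ?_) (Finset.mem_range.2 hN))
  · simp
  · rw [sub_nonneg]
    exact one_div_le_one_div_of_le (Nat.cast_pos.2 (by omega)) (Nat.cast_le.2 (by omega))

theorem transcendental_classDiff {a b : ℕ} (ha : 1 ≤ a) (ha' : a ≤ q) (hb : 1 ≤ b) (hb' : b ≤ q)
    (hab : a ≠ b) : Transcendental ℚ (classDiff (q := q) a b) := fun h => by
  have hz := PeriodicValue.logValue_eq_zero_of_isAlgebraic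
    (fun x => (isAlgebraic_classInd a x).sub (isAlgebraic_classInd b x)) h
  rcases hab.lt_or_gt with hlt | hlt
  · exact classDiff_ne_zero ha hb' hlt hz
  · have h1 := classDiff_eq (q := q) ha ha' hb hb'
    rw [show classDiff (q := q) a b = 0 from hz, mul_zero] at h1
    refine classDiff_ne_zero (q := q) hb ha' hlt ?_
    have h2 := classDiff_eq (q := q) hb hb' ha ha'
    rw [← neg_sub, ← h1, neg_zero, mul_eq_zero] at h2
    exact h2.resolve_left (Nat.cast_ne_zero.2 (NeZero.ne q))

theorem transcendental_digamma_sub {r s : ℚ} (hr : 0 < r) (hr' : r ≤ 1) (hs : 0 < s) (hs' : s ≤ 1)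
    (hne : r ≠ s) :
    Transcendental ℚ (Complex.digamma (r : ℂ) - Complex.digamma (s : ℂ)) := by
  -- a common denominator
  set q := r.den * s.den with hq
  have : NeZero q := ⟨Nat.mul_ne_zero r.den_nz s.den_nz⟩
  set a := r.num.toNat * s.den
  set b := s.num.toNat * r.den
  have hrn : ((r.num.toNat : ℕ) : ℚ) = r * r.den := by
    rw [Rat.mul_den_eq_num, ← Int.cast_natCast, Int.toNat_of_nonneg (Rat.num_pos.2 hr).le]
  have hsn : ((s.num.toNat : ℕ) : ℚ) = s * s.den := by
    rw [Rat.mul_den_eq_num, ← Int.cast_natCast, Int.toNat_of_nonneg (Rat.num_pos.2 hs).le]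
  have hqQ : (0 : ℚ) < (q : ℚ) := Nat.cast_pos.2 (NeZero.pos q)
  have ea : ((a : ℕ) : ℚ) = r * q := by
    simp only [a, hq, Nat.cast_mul, hrn]
    ring
  have eb : ((b : ℕ) : ℚ) = s * q := by
    simp only [b, hq, Nat.cast_mul, hsn]
    ring
  have hbound : ∀ {c : ℕ} {t : ℚ}, (c : ℚ) = t * q → 0 < t → t ≤ 1 → 1 ≤ c ∧ c ≤ q :=
    fun e h0 h1 => ⟨by
      have : (0 : ℚ) < _ := e ▸ mul_pos h0 hqQ
      exact_mod_cast this, by
      have : _ ≤ (q : ℚ) := e ▸ mul_le_of_le_one_left hqQ.le h1
      exact_mod_cast this⟩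
  obtain ⟨ha, ha'⟩ := hbound ea hr hr'
  obtain ⟨hb, hb'⟩ := hbound eb hs hs'
  have hab : a ≠ b := fun h => hne (by
    rw [h] at ea
    exact mul_right_cancel₀ hqQ.ne' (ea.symm.trans eb))
  have hcast : ∀ {c : ℕ} {t : ℚ}, (c : ℚ) = t * q → (t : ℂ) = (c : ℂ) / (q : ℂ) := fun {c t} e => by
    rw [eq_div_iff (Nat.cast_ne_zero.2 (NeZero.ne q)), ← Rat.cast_natCast c, e, Rat.cast_mul,
      Rat.cast_natCast]
  rw [hcast ea, hcast eb, ← classDiff_eq hb hb' ha ha']
  intro h
  refine transcendental_classDiff hb hb' ha ha' hab.symm ?_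
  have h2 := (isAlgebraic_algebraMap (R := ℚ) (A := ℂ) (q : ℚ)⁻¹).mul h
  rwa [map_inv₀, map_natCast, inv_mul_cancel_left₀ (Nat.cast_ne_zero.2 (NeZero.ne q))] at h2

theorem transcendental_digamma_add_gamma {r : ℚ} (hr : 0 < r) (hr' : r < 1) :
    Transcendental ℚ (Complex.digamma (r : ℂ) + Real.eulerMascheroniConstant) := by
  have := transcendental_digamma_sub hr hr'.le one_pos le_rfl hr'.ne
  simpa [Complex.digamma_one] using this

/-- The Euler–Lehmer constant `γ (a, q)`. -/
def eulerLehmer (q : ℕ) [NeZero q] (a : ℕ) : ℂ :=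
  PeriodicValue.logValue (fun x : ZMod q => classInd a x - (q : ℂ)⁻¹) +
    Real.eulerMascheroniConstant / q

theorem tendsto_eulerLehmer (a : ℕ) :
    Tendsto (fun M : ℕ => (∑ n ∈ (range (M + 1)).filter (fun n : ℕ => (n : ZMod q) = (a : ZMod q)),
      (1 : ℂ) / (n : ℂ)) - (Real.log M : ℂ) / q) atTop (𝓝 (eulerLehmer q a)) := by
  have hsum : ∑ x : ZMod q, (classInd a x - (q : ℂ)⁻¹) = 0 := by
    rw [Finset.sum_sub_distrib, sum_classInd, Finset.sum_const, Finset.card_univ, ZMod.card,
      nsmul_eq_mul, mul_inv_cancel₀ (Nat.cast_ne_zero.2 (NeZero.ne q)), sub_self]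
  have h1 := (PeriodicValue.tendsto_series hsum).comp (tendsto_add_atTop_nat 1)
  have h2 := ((Complex.continuous_ofReal.tendsto _).comp Real.tendsto_harmonic_sub_log).div_const
    (q : ℂ)
  refine (h1.add h2).congr fun M => ?_
  have hH : ((harmonic M : ℚ) : ℂ) = ∑ n ∈ range (M + 1), (1 : ℂ) / n := by
    rw [sum_range_succ', Nat.cast_zero, div_zero, add_zero, harmonic]
    push_cast
    simp
  simp only [Function.comp_apply, Complex.ofReal_sub, Complex.ofReal_ratCast, hH, sub_div,
    Finset.sum_sub_distrib, Finset.sum_div, Finset.sum_filter]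
  have e : ∀ n : ℕ, classInd a (n : ZMod q) / (n : ℂ) =
      if (n : ZMod q) = a then (1 : ℂ) / n else 0 := fun n => by
    rw [classInd]; split_ifs <;> simp
  simp only [e, one_div, inv_div_comm]
  have e2 : ∀ n : ℕ, (q : ℂ)⁻¹ / (n : ℂ) = (n : ℂ)⁻¹ / q := fun n => by ring
  simp only [e2]
  ring

theorem eulerLehmer_sub (a b : ℕ) :
    eulerLehmer q a - eulerLehmer q b = classDiff (q := q) a b := by
  rw [eulerLehmer, eulerLehmer, classDiff, add_sub_add_right_eq_sub]
  simp only [PeriodicValue.logValue, PeriodicValue.coeff, mul_sub, Finset.sum_sub_distrib, sub_mul,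
    sub_sub_sub_cancel_right]

end FA.MurtySaradha

end
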